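/-
Lib/CompleteDVR (helper3): the adic completion of a discrete valuation ring is a complete
discrete valuation ring with the same residue field.
-/
import Mathlib

set_option autoImplicit false

namespace Fermat.Agent.Lib.CompleteDVR

open IsLocalRing

section

variable (R : Type*) [CommRing R] [IsDomain R] [IsDiscreteValuationRing R]

/-- Notation: the completion of a DVR at its maximal ideal. -/
abbrev Compl : Type _ := AdicCompletion (maximalIdeal R) R

variable {R}

/-- The image of a uniformizer generates the maximal ideal of the completion. -/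
theorem maximalIdeal_compl_eq_span {ϖ : R} (hϖ : Irreducible ϖ) :
    maximalIdeal (Compl R) = Ideal.span {algebraMap R (Compl R) ϖ} := by
  rw [AdicCompletion.maximalIdeal_eq_map]
  conv_lhs => rw [show Ideal.map (algebraMap R (Compl R)) (maximalIdeal R)
    = Ideal.map (algebraMap R (Compl R)) (Ideal.span {ϖ}) from by rw [← hϖ.maximalIdeal_eq]]
  rw [Ideal.map_span, Set.image_singleton]

/-- Multiplication by the image of a nonzero element is injective on the completion. -/
theorem compl_mul_left_injective {a : R} (ha : a ≠ 0) :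
    Function.Injective fun x : Compl R => algebraMap R (Compl R) a * x := by
  have hreg : IsSMulRegular (Compl R) a :=
    Module.Flat.isSMulRegular_of_nonZeroDivisors (mem_nonZeroDivisors_of_ne_zero ha)
  intro x y hxy
  apply hreg
  simpa [Algebra.smul_def] using hxy

/-- Every nonzero element of the completion is a unit times a power of the uniformizer. -/
theorem compl_exists_unit_mul_pow {ϖ : R} (hϖ : Irreducible ϖ) {x : Compl R} (hx : x ≠ 0) :
    ∃ (n : ℕ) (u : (Compl R)ˣ), x = algebraMap R (Compl R) ϖ ^ n * u := by
  classical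
  have hspan := maximalIdeal_compl_eq_span hϖ
  have hH : IsHausdorff (maximalIdeal (Compl R)) (Compl R) := inferInstance
  -- some power of the maximal ideal misses `x`
  have hex : ∃ n : ℕ, x ∉ maximalIdeal (Compl R) ^ n := by
    by_contra hcon
    push Not at hcon
    apply hx
    apply hH.haus' x
    intro n
    rw [SModEq.zero]
    simpa using hcon n
  have h0 : ¬ (x ∉ maximalIdeal (Compl R) ^ 0) := by simp
  have hn1 : Nat.find hex ≠ 0 := fun h => h0 (h ▸ Nat.find_spec hex)
  obtain ⟨m, hm⟩ := Nat.exists_eq_succ_of_ne_zero hn1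
  have hmem : x ∈ maximalIdeal (Compl R) ^ m := by
    by_contra hcon
    have := Nat.find_min' hex hcon
    omega
  have hnot : x ∉ maximalIdeal (Compl R) ^ (m + 1) := by
    have := Nat.find_spec hex
    rwa [hm] at this
  rw [hspan, Ideal.span_singleton_pow, Ideal.mem_span_singleton'] at hmem
  obtain ⟨u, hu⟩ := hmem
  have hunit : IsUnit u := by
    by_contra hcon
    have hu' : u ∈ maximalIdeal (Compl R) := (mem_maximalIdeal u).mpr hcon
    apply hnot
    rw [pow_succ, ← hu, mul_comm u]
    exact Ideal.mul_mem_mul (by
      rw [hspan, Ideal.span_singleton_pow]; exact Ideal.mem_span_singleton_self _) hu'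
  exact ⟨m, hunit.unit, by rw [IsUnit.unit_spec, ← hu, mul_comm]⟩

theorem compl_algebraMap_injective : Function.Injective (algebraMap R (Compl R)) := by
  have : IsHausdorff (maximalIdeal R) R := inferInstance
  exact AdicCompletion.of_injective (maximalIdeal R) R

theorem compl_algebraMap_pow_ne_zero {ϖ : R} (hϖ : Irreducible ϖ) (n : ℕ) :
    algebraMap R (Compl R) ϖ ^ n ≠ 0 := by
  rw [← map_pow]
  intro h
  have := compl_algebraMap_injective (R := R) (h.trans (map_zero _).symm)
  exact pow_ne_zero n hϖ.ne_zero this

instance compl_isDomain : IsDomain (Compl R) := by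
  obtain ⟨ϖ, hϖ⟩ := IsDiscreteValuationRing.exists_irreducible R
  have hnz : NoZeroDivisors (Compl R) := by
    refine ⟨fun {x y} hxy => ?_⟩
    by_contra hcon
    push Not at hcon
    obtain ⟨a, u, rfl⟩ := compl_exists_unit_mul_pow hϖ hcon.1
    obtain ⟨b, v, rfl⟩ := compl_exists_unit_mul_pow hϖ hcon.2
    have h1 : algebraMap R (Compl R) ϖ ^ (a + b) * ((u * v : (Compl R)ˣ) : Compl R) = 0 := by
      rw [← hxy, pow_add, Units.val_mul]; ring
    have h2 : algebraMap R (Compl R) ϖ ^ (a + b) = 0 := by
      have := congrArg (· * (((u * v)⁻¹ : (Compl R)ˣ) : Compl R)) h1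
      simpa [mul_assoc] using this
    exact compl_algebraMap_pow_ne_zero hϖ _ h2
  exact NoZeroDivisors.to_isDomain _

instance compl_isDiscreteValuationRing : IsDiscreteValuationRing (Compl R) := by
  obtain ⟨ϖ, hϖ⟩ := IsDiscreteValuationRing.exists_irreducible R
  apply IsDiscreteValuationRing.ofHasUnitMulPowIrreducibleFactorization
  have hmem : algebraMap R (Compl R) ϖ ∈ maximalIdeal (Compl R) := by
    rw [maximalIdeal_compl_eq_span hϖ]; exact Ideal.mem_span_singleton_self _
  have hirr : Irreducible (algebraMap R (Compl R) ϖ) := by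
    refine ⟨(mem_maximalIdeal _).mp hmem, fun a b hab => ?_⟩
    have ha0 : a ≠ 0 := by
      rintro rfl
      rw [zero_mul] at hab
      exact compl_algebraMap_pow_ne_zero hϖ 1 (by rw [pow_one]; exact hab)
    have hb0 : b ≠ 0 := by
      rintro rfl
      rw [mul_zero] at hab
      exact compl_algebraMap_pow_ne_zero hϖ 1 (by rw [pow_one]; exact hab)
    obtain ⟨i, u, rfl⟩ := compl_exists_unit_mul_pow hϖ ha0
    obtain ⟨j, v, rfl⟩ := compl_exists_unit_mul_pow hϖ hb0
    rcases Nat.eq_zero_or_pos i with hi | hi
    · left; rw [hi, pow_zero, one_mul]; exact u.isUnit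
    rcases Nat.eq_zero_or_pos j with hj | hj
    · right; rw [hj, pow_zero, one_mul]; exact v.isUnit
    exfalso
    -- `ϖ = ϖ^(i+j) * unit` with `i + j ≥ 2` is impossible
    obtain ⟨k, hk⟩ : ∃ k, i + j = k + 2 := ⟨i + j - 2, by omega⟩
    have h1 : algebraMap R (Compl R) ϖ * 1
        = algebraMap R (Compl R) ϖ * (algebraMap R (Compl R) ϖ ^ (k + 1) * ((u * v : (Compl R)ˣ) : Compl R)) := by
      rw [mul_one]
      conv_lhs => rw [hab]
      rw [Units.val_mul, ← mul_assoc (algebraMap R (Compl R) ϖ), ← pow_succ', show k + 1 + 1 = i + j by omega, pow_add]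
      ring
    have h2 := compl_mul_left_injective hϖ.ne_zero h1
    have h3 : (1 : Compl R) ∈ maximalIdeal (Compl R) := by
      rw [h2]
      exact Ideal.mul_mem_right _ _ (Ideal.pow_mem_of_mem _ hmem _ (Nat.succ_pos k))
    exact (mem_maximalIdeal _).mp h3 isUnit_one
  exact ⟨algebraMap R (Compl R) ϖ, hirr, fun {x} hx => by
    obtain ⟨n, u, rfl⟩ := compl_exists_unit_mul_pow hϖ hx
    exact ⟨n, u, rfl⟩⟩


instance compl_charZero [CharZero R] : CharZero (Compl R) :=
  charZero_of_injective_algebraMap (compl_algebraMap_injective (R := R))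

instance compl_finite_residueField [Finite (ResidueField R)] : Finite (ResidueField (Compl R)) :=
  Finite.of_surjective _ (AdicCompletion.residueField_map_bijective R).2

/-- `x` lies in the maximal ideal of `R` iff its image lies in the maximal ideal of the
completion. -/
theorem compl_algebraMap_mem_maximalIdeal_iff (x : R) :
    algebraMap R (Compl R) x ∈ maximalIdeal (Compl R) ↔ x ∈ maximalIdeal R := by
  constructor
  · intro h
    by_contra hx
    have hu : IsUnit x := by
      by_contra hcon
      exact hx ((mem_maximalIdeal x).mpr hcon)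
    exact (mem_maximalIdeal _).mp h (hu.map _)
  · intro h
    rw [AdicCompletion.maximalIdeal_eq_map]
    exact Ideal.mem_map_of_mem _ h

/-- Every element of the completion is congruent to an element of `R` modulo the maximal
ideal. -/
theorem compl_exists_sub_mem_maximalIdeal (y : Compl R) :
    ∃ x : R, y - algebraMap R (Compl R) x ∈ maximalIdeal (Compl R) := by
  obtain ⟨z, hz⟩ := (AdicCompletion.residueField_map_bijective R).2 (residue (Compl R) y)
  obtain ⟨x, rfl⟩ := residue_surjective z
  refine ⟨x, ?_⟩
  rw [IsLocalRing.ResidueField.map_residue] at hz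
  rw [← residue_eq_zero_iff, map_sub, hz, sub_self]

end

end Fermat.Agent.Lib.CompleteDVR
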