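/-
Lib/CompleteDVR (helper3): a complete discrete valuation ring attached to a maximal ideal of a
Dedekind domain (completion of the localization), with the same residue field.
-/
import Fermat.Agent.Lib.CompleteDVR.Completion

set_option autoImplicit false

namespace Fermat.Agent.Lib.CompleteDVR

open IsLocalRing

/-- For a Dedekind domain `A` of characteristic zero and a nonzero maximal ideal `P` with finite
residue field there is a complete discrete valuation ring `O` of characteristic zero with finite
residue field and an injective ring homomorphism `ι : A → O` such that `ι⁻¹(𝔪_O) = P` and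
`A → O / 𝔪_O` is surjective. -/
theorem exists_completeDVR_of_dedekind (A : Type) [CommRing A] [IsDomain A] [IsDedekindDomain A]
    [CharZero A] (P : Ideal A) [hPmax : P.IsMaximal] (hP : P ≠ ⊥) [Finite (A ⧸ P)] :
    ∃ (O : Type) (_ : CommRing O) (_ : IsDomain O) (_ : IsDiscreteValuationRing O)
      (_ : IsAdicComplete (maximalIdeal O) O) (_ : Finite (ResidueField O)) (_ : CharZero O)
      (ι : A →+* O), Function.Injective ι ∧ (∀ x, ι x ∈ maximalIdeal O ↔ x ∈ P) ∧
        ∀ y : O, ∃ x : A, y - ι x ∈ maximalIdeal O := by
  have : P.IsPrime := hPmax.isPrime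
  let R₀ := Localization.AtPrime P
  have : IsDiscreteValuationRing R₀ :=
    IsLocalization.AtPrime.isDiscreteValuationRing_of_dedekind_domain A hP R₀
  have hinj₀ : Function.Injective (algebraMap A R₀) :=
    IsLocalization.injective R₀ P.primeCompl_le_nonZeroDivisors
  have : CharZero R₀ := charZero_of_injective_algebraMap hinj₀
  -- residue field of the localization
  let e := IsLocalization.AtPrime.equivQuotMaximalIdeal P R₀
  have : Finite (R₀ ⧸ maximalIdeal R₀) := Finite.of_equiv _ e.toEquiv
  have : Finite (ResidueField R₀) := inferInstanceAs (Finite (R₀ ⧸ maximalIdeal R₀))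
  refine ⟨Compl R₀, inferInstance, inferInstance, inferInstance, inferInstance, inferInstance,
    inferInstance, (algebraMap R₀ (Compl R₀)).comp (algebraMap A R₀), ?_, ?_, ?_⟩
  · exact (compl_algebraMap_injective (R := R₀)).comp hinj₀
  · intro x
    rw [RingHom.comp_apply, compl_algebraMap_mem_maximalIdeal_iff,
      IsLocalization.AtPrime.to_map_mem_maximal_iff R₀ P]
  · intro y
    obtain ⟨z, hz⟩ := compl_exists_sub_mem_maximalIdeal y
    obtain ⟨x, hx⟩ := Ideal.Quotient.mk_surjective (e.symm (Ideal.Quotient.mk _ z))
    have hzx : z - algebraMap A R₀ x ∈ maximalIdeal R₀ := by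
      rw [← Ideal.Quotient.eq]
      have := congrArg e hx
      rw [RingEquiv.apply_symm_apply, IsLocalization.AtPrime.equivQuotMaximalIdeal_apply_mk] at this
      exact this.symm
    refine ⟨x, ?_⟩
    have : y - (algebraMap R₀ (Compl R₀)).comp (algebraMap A R₀) x
        = (y - algebraMap R₀ (Compl R₀) z)
          + algebraMap R₀ (Compl R₀) (z - algebraMap A R₀ x) := by
      rw [RingHom.comp_apply, map_sub]; ring
    rw [this]
    exact Ideal.add_mem _ hz ((compl_algebraMap_mem_maximalIdeal_iff _).mpr hzx)

end Fermat.Agent.Lib.CompleteDVR
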